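import Fermat.Agent.S55.Local.Defs

/-!
# S55, layer L (local class field theory, cohomological core) : FROZEN INTERFACE

Architect: helper715.  Plan / proofs on paper: `origin/helper715:coord/S55-L.md`.

Every `...Statement : Prop` below is a deliverable.  A piece is DONE when some file proves
`theorem <name> : Fermat.Agent.S55.Local.<Name>Statement` (sorry-free, std. axioms only).
Glue theorems (in `Glue*.lean`) take the statements as hypotheses.

Conventions: see `Defs.lean`.  BASE `(A, F)`: complete DVR with finite residue field and its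
fraction field, characteristic zero.  Local fields `K, L, N`: finite extensions of `F`.
The Galois group `L ≃ₐ[K] L` acts on `Lˣ` by the Mathlib instance (`AlgEquiv.smul_units_def`);
cocycle predicates are Mathlib's `groupCohomology.IsMulCocycle₁/₂`, `IsMulCoboundary₁/₂`,
`IsCocycle₁/₂`, `IsCoboundary₁/₂`.
-/

set_option autoImplicit false

namespace Fermat.Agent.S55.Local

open groupCohomology

/-! ## Part A : abstract algebra (no number theory) -/

/-- (A1) successive approximation for 1-cocycles along a complete separated `G`-stable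
filtration. -/
def FiltH1Statement : Prop :=
  ∀ (G M : Type) [Group G] [CommGroup M] [MulDistribMulAction G M] (Fil : ℕ → Subgroup M),
    (∀ j, Fil (j + 1) ≤ Fil j) → (∀ j (g : G), ∀ x ∈ Fil j, g • x ∈ Fil j) →
    (∀ u : ℕ → M, (∀ j, u j ∈ Fil j) →
      ∃ s : M, ∀ n, s / ∏ j ∈ Finset.range n, u j ∈ Fil n) →
    (∀ x : M, (∀ j, x ∈ Fil j) → x = 1) →
    (∀ j (c : G → M), IsMulCocycle₁ c → (∀ g, c g ∈ Fil j) →
      ∃ m ∈ Fil j, ∀ g, c g / (g • m / m) ∈ Fil (j + 1)) →
    ∀ c : G → M, IsMulCocycle₁ c → (∀ g, c g ∈ Fil 0) → ∃ m ∈ Fil 0, ∀ g, g • m / m = c g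

/-- (A2) successive approximation for 2-cocycles (`G` finite). -/
def FiltH2Statement : Prop :=
  ∀ (G M : Type) [Group G] [Finite G] [CommGroup M] [MulDistribMulAction G M]
    (Fil : ℕ → Subgroup M),
    (∀ j, Fil (j + 1) ≤ Fil j) → (∀ j (g : G), ∀ x ∈ Fil j, g • x ∈ Fil j) →
    (∀ u : ℕ → M, (∀ j, u j ∈ Fil j) →
      ∃ s : M, ∀ n, s / ∏ j ∈ Finset.range n, u j ∈ Fil n) →
    (∀ x : M, (∀ j, x ∈ Fil j) → x = 1) →
    (∀ j (c : G × G → M), IsMulCocycle₂ c → (∀ p, c p ∈ Fil j) →
      ∃ x : G → M, (∀ g, x g ∈ Fil j) ∧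
        ∀ g h, c (g, h) / (g • x h / x (g * h) * x g) ∈ Fil (j + 1)) →
    ∀ c : G × G → M, IsMulCocycle₂ c → (∀ p, c p ∈ Fil 0) →
      ∃ x : G → M, (∀ g, x g ∈ Fil 0) ∧ ∀ g h, g • x h / x (g * h) * x g = c (g, h)

/-- (A3) successive approximation for `ker f ⊆ im g` (used with `(f, g) = (σ - 1, N)` and
`(N, σ - 1)` for a cyclic group). -/
def FiltKerImStatement : Prop :=
  ∀ (M : Type) [CommGroup M] (f g : M →* M) (Fil : ℕ → Subgroup M),
    (∀ j, Fil (j + 1) ≤ Fil j) → (∀ j, ∀ x ∈ Fil j, g x ∈ Fil j) →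
    (∀ u : ℕ → M, (∀ j, u j ∈ Fil j) →
      ∃ s : M, ∀ n, s / ∏ j ∈ Finset.range n, u j ∈ Fil n) →
    (∀ x : M, (∀ j, x ∈ Fil j) → x = 1) →
    (∀ x, f (g x) = 1) →
    (∀ j, ∀ x ∈ Fil j, f x = 1 → ∃ y ∈ Fil j, x / g y ∈ Fil (j + 1)) →
    ∀ x ∈ Fil 0, f x = 1 → ∃ y ∈ Fil 0, g y = x

/-- (A4a) the standard cyclic 2-cocycle is a 2-cocycle. -/
def CycCocycleIsCocycleStatement : Prop :=
  ∀ (G M : Type) [Group G] [Finite G] [CommGroup M] [MulDistribMulAction G M] (σ : G),
    (∀ g, g ∈ Subgroup.zpowers σ) → ∀ x : M, σ • x = x → IsMulCocycle₂ (cycCocycle σ x)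

/-- (A4b) the standard cyclic 2-cocycle of `x` is a coboundary iff `x` is a norm. -/
def CycCocycleCoboundaryIffStatement : Prop :=
  ∀ (G M : Type) [Group G] [Fintype G] [CommGroup M] [MulDistribMulAction G M] (σ : G),
    (∀ g, g ∈ Subgroup.zpowers σ) → ∀ x : M, σ • x = x →
      (IsMulCoboundary₂ (cycCocycle σ x) ↔ ∃ y : M, ∏ g : G, g • y = x)

/-- (A4c) every 2-cocycle of a finite cyclic group is cohomologous to a standard one. -/
def CycCocycleSurjStatement : Prop :=
  ∀ (G M : Type) [Group G] [Finite G] [CommGroup M] [MulDistribMulAction G M] (σ : G),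
    (∀ g, g ∈ Subgroup.zpowers σ) → ∀ c : G × G → M, IsMulCocycle₂ c →
      ∃ x : M, σ • x = x ∧ IsMulCoboundary₂ (fun p => c p / cycCocycle σ x p)

/-- (A4d) functoriality of the standard cocycle under an injective homomorphism of cyclic
groups `ρ : H → G` with `ρ τ = σ ^ (|G| / |H|)`. -/
def CycCocyclePullbackStatement : Prop :=
  ∀ (G H M : Type) [Group G] [Finite G] [Group H] [Finite H] [CommGroup M] (σ : G) (τ : H)
    (ρ : H →* G),
    (∀ g, g ∈ Subgroup.zpowers σ) → (∀ h, h ∈ Subgroup.zpowers τ) → Function.Injective ρ →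
    ρ τ = σ ^ (Nat.card G / Nat.card H) →
    ∀ x : M, ∀ p : H × H, cycCocycle σ x (ρ p.1, ρ p.2) = cycCocycle τ x p

/-! ## Part FF : finite Galois extensions, finite fields (Mathlib only) -/

/-- (FF1a) additive `H¹` of a finite Galois extension vanishes. -/
def AddH1Statement : Prop :=
  ∀ (k l : Type) [Field k] [Field l] [Algebra k l] [FiniteDimensional k l] [IsGalois k l]
    (c : (l ≃ₐ[k] l) → l), IsCocycle₁ c → IsCoboundary₁ c

/-- (FF1b) additive `H²` of a finite Galois extension vanishes. -/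
def AddH2Statement : Prop :=
  ∀ (k l : Type) [Field k] [Field l] [Algebra k l] [FiniteDimensional k l] [IsGalois k l]
    (c : (l ≃ₐ[k] l) × (l ≃ₐ[k] l) → l), IsCocycle₂ c → IsCoboundary₂ c

/-- (FF2) multiplicative `H²` of an extension of finite fields vanishes. -/
def MulH2FiniteFieldStatement : Prop :=
  ∀ (k l : Type) [Field k] [Finite k] [Field l] [Algebra k l] [FiniteDimensional k l]
    (c : (l ≃ₐ[k] l) × (l ≃ₐ[k] l) → lˣ), IsMulCocycle₂ c → IsMulCoboundary₂ c

/-! ## Part LF : basic structure of local fields -/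
/-- (LF1) integers of a local field form a valuation ring. -/
def IntOrInvStatement : Prop :=
  ∀ (A F : Type) [CommRing A] [IsDomain A] [IsDiscreteValuationRing A]
    [IsAdicComplete (IsLocalRing.maximalIdeal A) A] [Finite (IsLocalRing.ResidueField A)]
    [Field F] [CharZero F] [Algebra A F] [IsFractionRing A F]
    (L : Type) [Field L] [Algebra F L] [FiniteDimensional F L] (x : L),
    IsInt A F L x ∨ IsInt A F L x⁻¹

/-- (LF2) existence of a uniformizer. -/
def ExistsUnifStatement : Prop :=
  ∀ (A F : Type) [CommRing A] [IsDomain A] [IsDiscreteValuationRing A]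
    [IsAdicComplete (IsLocalRing.maximalIdeal A) A] [Finite (IsLocalRing.ResidueField A)]
    [Field F] [CharZero F] [Algebra A F] [IsFractionRing A F]
    (L : Type) [Field L] [Algebra F L] [FiniteDimensional F L],
    ∃ ϖ : Lˣ, IsUnif A F L ϖ

/-- (LF3) `K`-rational integral units: `U_L ∩ Kˣ = U_K`. -/
def IntUnitsComapStatement : Prop :=
  ∀ (A F : Type) [CommRing A] [IsDomain A] [IsDiscreteValuationRing A]
    [IsAdicComplete (IsLocalRing.maximalIdeal A) A] [Finite (IsLocalRing.ResidueField A)]
    [Field F] [CharZero F] [Algebra A F] [IsFractionRing A F]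
    (K : Type) [Field K] [Algebra F K] [FiniteDimensional F K]
    (L : Type) [Field L] [Algebra F L] [Algebra K L] [IsScalarTower F K L]
    [FiniteDimensional K L] (y : Kˣ),
    unitsIncl L K y ∈ intUnits A F L ↔ y ∈ intUnits A F K

/-- (LF4) automorphisms preserve the valuation. -/
def GaloisInvStatement : Prop :=
  ∀ (A F : Type) [CommRing A] [IsDomain A] [IsDiscreteValuationRing A]
    [IsAdicComplete (IsLocalRing.maximalIdeal A) A] [Finite (IsLocalRing.ResidueField A)]
    [Field F] [CharZero F] [Algebra A F] [IsFractionRing A F]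
    (K : Type) [Field K] [Algebra F K] [FiniteDimensional F K]
    (L : Type) [Field L] [Algebra F L] [Algebra K L] [IsScalarTower F K L]
    [FiniteDimensional K L] (σ : L ≃ₐ[K] L) (x : Lˣ),
    σ • x / x ∈ intUnits A F L

/-- (LF5) completeness and separatedness of the unit group for the `ϖ`-adic filtration,
`ϖ` any nonzero integral non-unit of `L`. -/
def UnitsCompleteStatement : Prop :=
  ∀ (A F : Type) [CommRing A] [IsDomain A] [IsDiscreteValuationRing A]
    [IsAdicComplete (IsLocalRing.maximalIdeal A) A] [Finite (IsLocalRing.ResidueField A)]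
    [Field F] [CharZero F] [Algebra A F] [IsFractionRing A F]
    (L : Type) [Field L] [Algebra F L] [FiniteDimensional F L] (ϖ : L),
    IsInt A F L ϖ → ϖ ≠ 0 → ¬ IsInt A F L ϖ⁻¹ →
    (∀ u : ℕ → Lˣ, (∀ j, u j ∈ higherUnits A F L ϖ j) →
      ∃ s : Lˣ, ∀ n, s / ∏ j ∈ Finset.range n, u j ∈ higherUnits A F L ϖ n) ∧
    (∀ x : Lˣ, (∀ j, x ∈ higherUnits A F L ϖ j) → x = 1)

/-- (LF6) higher unit groups have finite index in the unit group. -/
def HigherUnitsFiniteIndexStatement : Prop :=
  ∀ (A F : Type) [CommRing A] [IsDomain A] [IsDiscreteValuationRing A]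
    [IsAdicComplete (IsLocalRing.maximalIdeal A) A] [Finite (IsLocalRing.ResidueField A)]
    [Field F] [CharZero F] [Algebra A F] [IsFractionRing A F]
    (L : Type) [Field L] [Algebra F L] [FiniteDimensional F L] (ϖ : L),
    IsInt A F L ϖ → ϖ ≠ 0 → ∀ j, (higherUnits A F L ϖ j).relIndex (intUnits A F L) ≠ 0

/-- (LF7) valuation of a norm, general form: if `ϖK`, `ϖL` are uniformizers of `K`, `L` then
`N(ϖL) = unit * ϖK ^ f` and `ϖK = unit * ϖL ^ e` with `e * f = [L : K]`. -/
def RamificationStatement : Prop :=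
  ∀ (A F : Type) [CommRing A] [IsDomain A] [IsDiscreteValuationRing A]
    [IsAdicComplete (IsLocalRing.maximalIdeal A) A] [Finite (IsLocalRing.ResidueField A)]
    [Field F] [CharZero F] [Algebra A F] [IsFractionRing A F]
    (K : Type) [Field K] [Algebra F K] [FiniteDimensional F K]
    (L : Type) [Field L] [Algebra F L] [Algebra K L] [IsScalarTower F K L]
    [FiniteDimensional K L] (ϖK : Kˣ) (ϖL : Lˣ),
    IsUnif A F K ϖK → IsUnif A F L ϖL →
    ∃ e f : ℕ, e * f = Module.finrank K L ∧
      unitsIncl L K ϖK * ϖL ^ (-(e : ℤ)) ∈ intUnits A F L ∧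
      normUnits L K ϖL * ϖK ^ (-(f : ℤ)) ∈ intUnits A F K

/-- (LF8) norms of integral units are integral units. -/
def NormUnitsIntStatement : Prop :=
  ∀ (A F : Type) [CommRing A] [IsDomain A] [IsDiscreteValuationRing A]
    [IsAdicComplete (IsLocalRing.maximalIdeal A) A] [Finite (IsLocalRing.ResidueField A)]
    [Field F] [CharZero F] [Algebra A F] [IsFractionRing A F]
    (K : Type) [Field K] [Algebra F K] [FiniteDimensional F K]
    (L : Type) [Field L] [Algebra F L] [Algebra K L] [IsScalarTower F K L]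
    [FiniteDimensional K L] (x : Lˣ),
    x ∈ intUnits A F L → normUnits L K x ∈ intUnits A F K

/-! ## Part UR : unramified extensions -/

/-- (UR1) an unramified Galois extension is cyclic. -/
def UnramCyclicStatement : Prop :=
  ∀ (A F : Type) [CommRing A] [IsDomain A] [IsDiscreteValuationRing A]
    [IsAdicComplete (IsLocalRing.maximalIdeal A) A] [Finite (IsLocalRing.ResidueField A)]
    [Field F] [CharZero F] [Algebra A F] [IsFractionRing A F]
    (K : Type) [Field K] [Algebra F K] [FiniteDimensional F K]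
    (L : Type) [Field L] [Algebra F L] [Algebra K L] [IsScalarTower F K L]
    [FiniteDimensional K L] [IsGalois K L],
    IsUnram A F L K → IsCyclic (L ≃ₐ[K] L)

/-- (UR2) graded step for 1-cocycles with values in units of an unramified extension. -/
def UnramGradedH1Statement : Prop :=
  ∀ (A F : Type) [CommRing A] [IsDomain A] [IsDiscreteValuationRing A]
    [IsAdicComplete (IsLocalRing.maximalIdeal A) A] [Finite (IsLocalRing.ResidueField A)]
    [Field F] [CharZero F] [Algebra A F] [IsFractionRing A F]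
    (K : Type) [Field K] [Algebra F K] [FiniteDimensional F K]
    (L : Type) [Field L] [Algebra F L] [Algebra K L] [IsScalarTower F K L]
    [FiniteDimensional K L] [IsGalois K L] (ϖK : Kˣ),
    IsUnram A F L K → IsUnif A F K ϖK →
    ∀ j (c : (L ≃ₐ[K] L) → Lˣ), IsMulCocycle₁ c →
      (∀ g, c g ∈ higherUnits A F L (algebraMap K L ϖK) j) →
      ∃ m ∈ higherUnits A F L (algebraMap K L ϖK) j,
        ∀ g, c g / (g • m / m) ∈ higherUnits A F L (algebraMap K L ϖK) (j + 1)

/-- (UR3) graded step for 2-cocycles with values in units of an unramified extension. -/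
def UnramGradedH2Statement : Prop :=
  ∀ (A F : Type) [CommRing A] [IsDomain A] [IsDiscreteValuationRing A]
    [IsAdicComplete (IsLocalRing.maximalIdeal A) A] [Finite (IsLocalRing.ResidueField A)]
    [Field F] [CharZero F] [Algebra A F] [IsFractionRing A F]
    (K : Type) [Field K] [Algebra F K] [FiniteDimensional F K]
    (L : Type) [Field L] [Algebra F L] [Algebra K L] [IsScalarTower F K L]
    [FiniteDimensional K L] [IsGalois K L] (ϖK : Kˣ),
    IsUnram A F L K → IsUnif A F K ϖK →
    ∀ j (c : (L ≃ₐ[K] L) × (L ≃ₐ[K] L) → Lˣ), IsMulCocycle₂ c →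
      (∀ p, c p ∈ higherUnits A F L (algebraMap K L ϖK) j) →
      ∃ x : (L ≃ₐ[K] L) → Lˣ, (∀ g, x g ∈ higherUnits A F L (algebraMap K L ϖK) j) ∧
        ∀ g h, c (g, h) / (g • x h / x (g * h) * x g) ∈
          higherUnits A F L (algebraMap K L ϖK) (j + 1)

/-- (T1a) `H¹(Gal(L/K), U_L) = 0` for `L / K` unramified. -/
def UnramUnitsH1Statement : Prop :=
  ∀ (A F : Type) [CommRing A] [IsDomain A] [IsDiscreteValuationRing A]
    [IsAdicComplete (IsLocalRing.maximalIdeal A) A] [Finite (IsLocalRing.ResidueField A)]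
    [Field F] [CharZero F] [Algebra A F] [IsFractionRing A F]
    (K : Type) [Field K] [Algebra F K] [FiniteDimensional F K]
    (L : Type) [Field L] [Algebra F L] [Algebra K L] [IsScalarTower F K L]
    [FiniteDimensional K L] [IsGalois K L],
    IsUnram A F L K →
    ∀ c : (L ≃ₐ[K] L) → Lˣ, IsMulCocycle₁ c → (∀ g, c g ∈ intUnits A F L) →
      ∃ m ∈ intUnits A F L, ∀ g, g • m / m = c g

/-- (T1b) `H²(Gal(L/K), U_L) = 0` for `L / K` unramified. -/
def UnramUnitsH2Statement : Prop :=
  ∀ (A F : Type) [CommRing A] [IsDomain A] [IsDiscreteValuationRing A]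
    [IsAdicComplete (IsLocalRing.maximalIdeal A) A] [Finite (IsLocalRing.ResidueField A)]
    [Field F] [CharZero F] [Algebra A F] [IsFractionRing A F]
    (K : Type) [Field K] [Algebra F K] [FiniteDimensional F K]
    (L : Type) [Field L] [Algebra F L] [Algebra K L] [IsScalarTower F K L]
    [FiniteDimensional K L] [IsGalois K L],
    IsUnram A F L K →
    ∀ c : (L ≃ₐ[K] L) × (L ≃ₐ[K] L) → Lˣ, IsMulCocycle₂ c → (∀ p, c p ∈ intUnits A F L) →
      ∃ x : (L ≃ₐ[K] L) → Lˣ, (∀ g, x g ∈ intUnits A F L) ∧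
        ∀ g h, g • x h / x (g * h) * x g = c (g, h)

/-- (UR4) in an unramified extension every unit of `K` is the norm of a unit of `L`. -/
def UnramNormUnitsStatement : Prop :=
  ∀ (A F : Type) [CommRing A] [IsDomain A] [IsDiscreteValuationRing A]
    [IsAdicComplete (IsLocalRing.maximalIdeal A) A] [Finite (IsLocalRing.ResidueField A)]
    [Field F] [CharZero F] [Algebra A F] [IsFractionRing A F]
    (K : Type) [Field K] [Algebra F K] [FiniteDimensional F K]
    (L : Type) [Field L] [Algebra F L] [Algebra K L] [IsScalarTower F K L]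
    [FiniteDimensional K L] [IsGalois K L],
    IsUnram A F L K →
    ∀ u ∈ intUnits A F K, ∃ w ∈ intUnits A F L, normUnits L K w = u

/-- (T2) norm group of an unramified extension of degree `n`: `unit * ϖK ^ m` is a norm iff
`n ∣ m`. -/
def UnramNormRangeStatement : Prop :=
  ∀ (A F : Type) [CommRing A] [IsDomain A] [IsDiscreteValuationRing A]
    [IsAdicComplete (IsLocalRing.maximalIdeal A) A] [Finite (IsLocalRing.ResidueField A)]
    [Field F] [CharZero F] [Algebra A F] [IsFractionRing A F]
    (K : Type) [Field K] [Algebra F K] [FiniteDimensional F K]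
    (L : Type) [Field L] [Algebra F L] [Algebra K L] [IsScalarTower F K L]
    [FiniteDimensional K L] [IsGalois K L] (ϖK : Kˣ),
    IsUnram A F L K → IsUnif A F K ϖK →
    ∀ (u : Kˣ) (m : ℤ), u ∈ intUnits A F K →
      (u * ϖK ^ m ∈ (normUnits L K).range ↔ (Module.finrank K L : ℤ) ∣ m)

/-- (UR5) existence of unramified extensions on top of a given Galois extension: for `L / K`
finite Galois and `n ≥ 1` there is a finite extension `N / L`, Galois over `K`, with `N / L`
unramified (cyclic) of degree `n`. -/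
def ExistsUnramExtStatement : Prop :=
  ∀ (A F : Type) [CommRing A] [IsDomain A] [IsDiscreteValuationRing A]
    [IsAdicComplete (IsLocalRing.maximalIdeal A) A] [Finite (IsLocalRing.ResidueField A)]
    [Field F] [CharZero F] [Algebra A F] [IsFractionRing A F]
    (K : Type) [Field K] [Algebra F K] [FiniteDimensional F K]
    (L : Type) [Field L] [Algebra F L] [Algebra K L] [IsScalarTower F K L]
    [FiniteDimensional K L] [IsGalois K L] (n : ℕ), 0 < n →
    ∃ (N : Type) (_ : Field N) (_ : Algebra F N) (_ : Algebra K N) (_ : Algebra L N)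
      (_ : IsScalarTower F K N) (_ : IsScalarTower F L N) (_ : IsScalarTower K L N)
      (_ : FiniteDimensional K N) (_ : IsGalois K N),
      IsUnram A F N L ∧ Module.finrank L N = n

/-- (UR6) inertia: in a finite Galois extension `N / K` there is a normal subgroup `I` of
`Gal(N/K)` such that, for every intermediate field `E`, `N / E` is unramified iff
`Gal(N/E) ⊓ I = ⊥`, and `E / K` is unramified iff `I ≤ Gal(N/E)`. -/
def InertiaStatement : Prop :=
  ∀ (A F : Type) [CommRing A] [IsDomain A] [IsDiscreteValuationRing A]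
    [IsAdicComplete (IsLocalRing.maximalIdeal A) A] [Finite (IsLocalRing.ResidueField A)]
    [Field F] [CharZero F] [Algebra A F] [IsFractionRing A F]
    (K : Type) [Field K] [Algebra F K] [FiniteDimensional F K]
    (N : Type) [Field N] [Algebra F N] [Algebra K N] [IsScalarTower F K N]
    [FiniteDimensional K N] [IsGalois K N],
    ∃ I : Subgroup (N ≃ₐ[K] N), I.Normal ∧
      ∀ E : IntermediateField K N,
        letI : Algebra F E := ((algebraMap K E).comp (algebraMap F K)).toAlgebra
        (IsUnram A F N E ↔ E.fixingSubgroup ⊓ I = ⊥) ∧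
        (IsUnram A F E K ↔ I ≤ E.fixingSubgroup)

/-! ## Part CY : cyclic extensions (Herbrand quotient) -/

/-- (CY1) a cohomologically trivial subgroup of finite index in the units of a cyclic
extension. -/
def CyclicGoodSubgroupStatement : Prop :=
  ∀ (A F : Type) [CommRing A] [IsDomain A] [IsDiscreteValuationRing A]
    [IsAdicComplete (IsLocalRing.maximalIdeal A) A] [Finite (IsLocalRing.ResidueField A)]
    [Field F] [CharZero F] [Algebra A F] [IsFractionRing A F]
    (K : Type) [Field K] [Algebra F K] [FiniteDimensional F K]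
    (L : Type) [Field L] [Algebra F L] [Algebra K L] [IsScalarTower F K L]
    [FiniteDimensional K L] [IsGalois K L] (σ : L ≃ₐ[K] L), (∀ g, g ∈ Subgroup.zpowers σ) →
    ∃ V : Subgroup Lˣ, V ≤ intUnits A F L ∧ V.relIndex (intUnits A F L) ≠ 0 ∧
      (∀ g : L ≃ₐ[K] L, ∀ x ∈ V, g • x ∈ V) ∧
      (∀ x ∈ V, σ • x = x → ∃ y ∈ V, ∏ g : L ≃ₐ[K] L, g • y = x) ∧
      (∀ x ∈ V, ∏ g : L ≃ₐ[K] L, g • x = 1 → ∃ y ∈ V, σ • y / y = x)

/-- (T3) local norm index: `[Kˣ : N(Lˣ)] = [L : K]` for `L / K` cyclic. -/
def CyclicNormIndexStatement : Prop :=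
  ∀ (A F : Type) [CommRing A] [IsDomain A] [IsDiscreteValuationRing A]
    [IsAdicComplete (IsLocalRing.maximalIdeal A) A] [Finite (IsLocalRing.ResidueField A)]
    [Field F] [CharZero F] [Algebra A F] [IsFractionRing A F]
    (K : Type) [Field K] [Algebra F K] [FiniteDimensional F K]
    (L : Type) [Field L] [Algebra F L] [Algebra K L] [IsScalarTower F K L]
    [FiniteDimensional K L] [IsGalois K L],
    IsCyclic (L ≃ₐ[K] L) → (normUnits L K).range.index = Module.finrank K L

/-- (T3') `|H²(Gal(L/K), Lˣ)| = [L : K]` for `L / K` cyclic. -/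
def CyclicH2CardStatement : Prop :=
  ∀ (A F : Type) [CommRing A] [IsDomain A] [IsDiscreteValuationRing A]
    [IsAdicComplete (IsLocalRing.maximalIdeal A) A] [Finite (IsLocalRing.ResidueField A)]
    [Field F] [CharZero F] [Algebra A F] [IsFractionRing A F]
    (K : Type) [Field K] [Algebra F K] [FiniteDimensional F K]
    (L : Type) [Field L] [Algebra F L] [Algebra K L] [IsScalarTower F K L]
    [FiniteDimensional K L] [IsGalois K L],
    IsCyclic (L ≃ₐ[K] L) → Nat.card (H2 (Rep.ofAlgebraAutOnUnits K L)) = Module.finrank K L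

/-! ## Part G : general Galois extensions -/

/-- (T4) upper bound: `|H²(Gal(L/K), Lˣ)|` divides `[L : K]`. -/
def H2CardDvdStatement : Prop :=
  ∀ (A F : Type) [CommRing A] [IsDomain A] [IsDiscreteValuationRing A]
    [IsAdicComplete (IsLocalRing.maximalIdeal A) A] [Finite (IsLocalRing.ResidueField A)]
    [Field F] [CharZero F] [Algebra A F] [IsFractionRing A F]
    (K : Type) [Field K] [Algebra F K] [FiniteDimensional F K]
    (L : Type) [Field L] [Algebra F L] [Algebra K L] [IsScalarTower F K L]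
    [FiniteDimensional K L] [IsGalois K L],
    Nat.card (H2 (Rep.ofAlgebraAutOnUnits K L)) ∣ Module.finrank K L

/-- (T5) MAIN THEOREM of the layer: `H²(Gal(L/K), Lˣ)` is cyclic of order `[L : K]`. -/
def H2CyclicStatement : Prop :=
  ∀ (A F : Type) [CommRing A] [IsDomain A] [IsDiscreteValuationRing A]
    [IsAdicComplete (IsLocalRing.maximalIdeal A) A] [Finite (IsLocalRing.ResidueField A)]
    [Field F] [CharZero F] [Algebra A F] [IsFractionRing A F]
    (K : Type) [Field K] [Algebra F K] [FiniteDimensional F K]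
    (L : Type) [Field L] [Algebra F L] [Algebra K L] [IsScalarTower F K L]
    [FiniteDimensional K L] [IsGalois K L],
    Nat.card (H2 (Rep.ofAlgebraAutOnUnits K L)) = Module.finrank K L ∧
      IsAddCyclic (H2 (Rep.ofAlgebraAutOnUnits K L))

end Fermat.Agent.S55.Local
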