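import Fermat.Agent.S55.Local.Spec

/-!
# S55, layer L (local class field theory, cohomological core) : interface, part 2

Additions to the frozen interface `Spec.lean` found necessary in review (helper483, helper244,
helper964, helper64): the proof of the lower bound in T5 uses `|I| = e(N/K)` for the inertia
subgroup `I` of UR6, which `InertiaStatement` alone does not export.

* `IsInertiaSubgroup A F K N I` : the property of `I` in `InertiaStatement`, verbatim.
* `InertiaCardStatement` (UR6') : UR6 together with `ϖK = unit * ϖN ^ |I|` for the SAME `I`.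
  This is the statement the UR6 producers should prove; the T5 glue consumes it.
* `inertiaStatement_of_inertiaCard` : UR6' implies UR6.
* `IsInertiaSubgroup.unique` : a subgroup with the UR6 property is unique.
* `inertiaCard_forall` : UR6' implies the cardinality clause for EVERY subgroup with the UR6
  property (the form used by consumers that already hold some `I` from UR6).
-/

set_option autoImplicit false

namespace Fermat.Agent.S55.Local

/-- The property of the subgroup `I` in `InertiaStatement` (UR6), verbatim: for every
intermediate field `E` of `N / K`, `N / E` is unramified iff `Gal(N/E) ⊓ I = ⊥`, and `E / K` is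
unramified iff `I ≤ Gal(N/E)`. -/
def IsInertiaSubgroup (A F : Type) [CommRing A] [Field F] [Algebra A F]
    (K : Type) [Field K] [Algebra F K]
    (N : Type) [Field N] [Algebra F N] [Algebra K N]
    (I : Subgroup (N ≃ₐ[K] N)) : Prop :=
  ∀ E : IntermediateField K N,
    letI : Algebra F E := ((algebraMap K E).comp (algebraMap F K)).toAlgebra
    (IsUnram A F N E ↔ E.fixingSubgroup ⊓ I = ⊥) ∧
    (IsUnram A F E K ↔ I ≤ E.fixingSubgroup)

/-- (UR6') inertia with cardinality: UR6, and moreover the order of the inertia subgroup is the
ramification index, i.e. if `ϖK`, `ϖN` are uniformizers of `K`, `N` then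
`ϖK = unit * ϖN ^ |I|`. -/
def InertiaCardStatement : Prop :=
  ∀ (A F : Type) [CommRing A] [IsDomain A] [IsDiscreteValuationRing A]
    [IsAdicComplete (IsLocalRing.maximalIdeal A) A] [Finite (IsLocalRing.ResidueField A)]
    [Field F] [CharZero F] [Algebra A F] [IsFractionRing A F]
    (K : Type) [Field K] [Algebra F K] [FiniteDimensional F K]
    (N : Type) [Field N] [Algebra F N] [Algebra K N] [IsScalarTower F K N]
    [FiniteDimensional K N] [IsGalois K N],
    ∃ I : Subgroup (N ≃ₐ[K] N), I.Normal ∧ IsInertiaSubgroup A F K N I ∧
      ∀ (ϖK : Kˣ) (ϖN : Nˣ), IsUnif A F K ϖK → IsUnif A F N ϖN →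
        unitsIncl N K ϖK * ϖN ^ (-(Nat.card I : ℤ)) ∈ intUnits A F N

/-- UR6' implies UR6. -/
theorem inertiaStatement_of_inertiaCard (h : InertiaCardStatement) : InertiaStatement := by
  intro A F _ _ _ _ _ _ _ _ _ K _ _ _ N _ _ _ _ _ _
  obtain ⟨I, hI, hprop, -⟩ := h A F K N
  exact ⟨I, hI, hprop⟩

/-- A subgroup with the UR6 property is unique (only the second clause is needed). -/
theorem IsInertiaSubgroup.unique {A F : Type} [CommRing A] [Field F] [Algebra A F]
    {K : Type} [Field K] [Algebra F K]
    {N : Type} [Field N] [Algebra F N] [Algebra K N] [FiniteDimensional K N]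
    {I I' : Subgroup (N ≃ₐ[K] N)}
    (h : IsInertiaSubgroup A F K N I) (h' : IsInertiaSubgroup A F K N I') : I = I' := by
  have key : ∀ {J J' : Subgroup (N ≃ₐ[K] N)}, IsInertiaSubgroup A F K N J →
      IsInertiaSubgroup A F K N J' → J ≤ J' := by
    intro J J' hJ hJ'
    have h1 := (hJ' (IntermediateField.fixedField J')).2
    have h2 := (hJ (IntermediateField.fixedField J')).2
    rw [IntermediateField.fixingSubgroup_fixedField] at h1 h2
    exact h2.mp (h1.mpr le_rfl)
  exact le_antisymm (key h h') (key h' h)

/-- UR6' gives the cardinality clause for every subgroup with the UR6 property. -/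
theorem inertiaCard_forall (h : InertiaCardStatement)
    (A F : Type) [CommRing A] [IsDomain A] [IsDiscreteValuationRing A]
    [IsAdicComplete (IsLocalRing.maximalIdeal A) A] [Finite (IsLocalRing.ResidueField A)]
    [Field F] [CharZero F] [Algebra A F] [IsFractionRing A F]
    (K : Type) [Field K] [Algebra F K] [FiniteDimensional F K]
    (N : Type) [Field N] [Algebra F N] [Algebra K N] [IsScalarTower F K N]
    [FiniteDimensional K N] [IsGalois K N] (I : Subgroup (N ≃ₐ[K] N))
    (hI : IsInertiaSubgroup A F K N I) (ϖK : Kˣ) (ϖN : Nˣ)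
    (hK : IsUnif A F K ϖK) (hN : IsUnif A F N ϖN) :
    unitsIncl N K ϖK * ϖN ^ (-(Nat.card I : ℤ)) ∈ intUnits A F N := by
  obtain ⟨I', -, hprop, hcard⟩ := h A F K N
  rw [hI.unique hprop]
  exact hcard ϖK ϖN hK hN

end Fermat.Agent.S55.Local
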