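import Mathlib

/-!
# S55, layer L (local class field theory, cohomological core) : definitions

BASE: a complete discrete valuation ring `A` with finite residue field and fraction field `F`
(think `A = ℤ_[q]`, `F = ℚ_[q]`).  A *local field* is a field `K` with
`[Algebra F K] [FiniteDimensional F K]`.  For an extension `L / K` of local fields we always assume
`[Algebra F K] [Algebra F L] [Algebra K L] [IsScalarTower F K L]`.

Integrality is ALWAYS over the base ring `A`, via the ring homomorphism `toL A F L : A →+* L`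
(composite `A → F → L`) and `RingHom.IsIntegralElem`; no `Algebra A L` instance is ever required
in a statement.  Inside proofs use `letI : Algebra A L := (toL A F L).toAlgebra` and
`IsScalarTower.of_algebraMap_eq (fun _ => rfl)`.
-/

set_option autoImplicit false

namespace Fermat.Agent.S55.Local

section Defs

variable (A F : Type) [CommRing A] [Field F] [Algebra A F]
variable (L : Type) [Field L] [Algebra F L]

/-- The structure map `A → F → L`. -/
def toL : A →+* L := (algebraMap F L).comp (algebraMap A F)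

@[simp] lemma toL_apply (a : A) : toL A F L a = algebraMap F L (algebraMap A F a) := rfl

/-- `x : L` is integral over `A`. -/
def IsInt (x : L) : Prop := (toL A F L).IsIntegralElem x

variable {A F L} in
lemma IsInt.mul {x y : L} (hx : IsInt A F L x) (hy : IsInt A F L y) : IsInt A F L (x * y) :=
  RingHom.IsIntegralElem.mul _ hx hy

variable {A F L} in
lemma IsInt.add {x y : L} (hx : IsInt A F L x) (hy : IsInt A F L y) : IsInt A F L (x + y) :=
  RingHom.IsIntegralElem.add _ hx hy

variable {A F L} in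
lemma IsInt.neg {x : L} (hx : IsInt A F L x) : IsInt A F L (-x) :=
  RingHom.IsIntegralElem.neg _ hx

lemma isInt_one : IsInt A F L 1 := RingHom.isIntegralElem_one _

lemma isInt_zero : IsInt A F L 0 := RingHom.isIntegralElem_zero _

lemma isInt_toL (a : A) : IsInt A F L (toL A F L a) := RingHom.isIntegralElem_map _

/-- The units `U_L` of the ring of integers of `L`, as a subgroup of `Lˣ`. -/
def intUnits : Subgroup Lˣ where
  carrier := {x | IsInt A F L (x : L) ∧ IsInt A F L ((x⁻¹ : Lˣ) : L)}
  mul_mem' := by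
    rintro x y ⟨hx, hx'⟩ ⟨hy, hy'⟩
    refine ⟨by simpa using hx.mul hy, ?_⟩
    have : ((x * y)⁻¹ : Lˣ) = x⁻¹ * y⁻¹ := by rw [mul_inv]
    rw [this]; simpa using hx'.mul hy'
  one_mem' := by simp [isInt_one]
  inv_mem' := by
    rintro x ⟨hx, hx'⟩
    exact ⟨hx', by simpa using hx⟩

lemma mem_intUnits {x : Lˣ} :
    x ∈ intUnits A F L ↔ IsInt A F L (x : L) ∧ IsInt A F L ((x⁻¹ : Lˣ) : L) := Iff.rfl

/-- The higher unit group `U_L^{(ϖ, j)} = {u ∈ U_L : u - 1 ∈ ϖ^j · O_L}` relative to an element
`ϖ : L` (in applications a uniformizer of a subfield `K ⊆ L`, so that it is Galois-stable).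
For `j = 0` this is `U_L` (when `ϖ` is integral). -/
def higherUnits (ϖ : L) (j : ℕ) : Subgroup Lˣ where
  carrier := {x | x ∈ intUnits A F L ∧ ∃ b : L, IsInt A F L b ∧ (x : L) = 1 + ϖ ^ j * b}
  mul_mem' := by
    rintro x y ⟨hx, a, ha, hxa⟩ ⟨hy, b, hb, hyb⟩
    refine ⟨(intUnits A F L).mul_mem hx hy, a + b + (x - 1) * b, ?_, ?_⟩
    · have hx1 : IsInt A F L ((x : L) - 1) := by
        have := hx.1.add (isInt_one A F L).neg
        simpa [sub_eq_add_neg] using this
      exact (ha.add hb).add (hx1.mul hb)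
    · rw [Units.val_mul, hyb]
      have : (x : L) - 1 = ϖ ^ j * a := by rw [hxa]; ring
      linear_combination this
  one_mem' := ⟨(intUnits A F L).one_mem, 0, isInt_zero A F L, by simp⟩
  inv_mem' := by
    rintro x ⟨hx, a, ha, hxa⟩
    refine ⟨(intUnits A F L).inv_mem hx, -(a * ((x⁻¹ : Lˣ) : L)), (ha.mul hx.2).neg, ?_⟩
    have h1 : (x : L) * ((x⁻¹ : Lˣ) : L) = 1 := by simp
    have : (1 + ϖ ^ j * a) * ((x⁻¹ : Lˣ) : L) = 1 := by rw [← hxa]; exact h1
    linear_combination this

lemma mem_higherUnits {ϖ : L} {j : ℕ} {x : Lˣ} :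
    x ∈ higherUnits A F L ϖ j ↔
      x ∈ intUnits A F L ∧ ∃ b : L, IsInt A F L b ∧ (x : L) = 1 + ϖ ^ j * b := Iff.rfl

/-- `ϖ : Lˣ` is a uniformizer of `L`: it is integral, not a unit of the ring of integers, and
every `x : Lˣ` is `ϖ ^ n` times a unit of the ring of integers. -/
def IsUnif (ϖ : Lˣ) : Prop :=
  IsInt A F L (ϖ : L) ∧ ϖ ∉ intUnits A F L ∧ ∀ x : Lˣ, ∃ n : ℤ, x * ϖ ^ (-n) ∈ intUnits A F L

variable (K : Type) [Field K] [Algebra F K] [Algebra K L]

/-- The inclusion `Kˣ → Lˣ`. -/
def unitsIncl : Kˣ →* Lˣ := Units.map (algebraMap K L).toMonoidHom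

@[simp] lemma unitsIncl_coe (y : Kˣ) : ((unitsIncl L K y : Lˣ) : L) = algebraMap K L y := rfl

/-- `L / K` is unramified: `Lˣ = Kˣ · U_L` (a uniformizer of `K` is a uniformizer of `L`). -/
def IsUnram : Prop :=
  ∀ x : Lˣ, ∃ y : Kˣ, x * (unitsIncl L K y)⁻¹ ∈ intUnits A F L

/-- The norm map `Lˣ → Kˣ`. -/
noncomputable def normUnits : Lˣ →* Kˣ := Units.map (Algebra.norm K : L →* K)

@[simp] lemma normUnits_coe (x : Lˣ) : ((normUnits L K x : Kˣ) : K) = Algebra.norm K (x : L) := rfl

end Defs

section Cyclic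

variable {G : Type} [Group G]

/-- Discrete logarithm in a finite cyclic group with generator `σ`: the least `k : ℕ` with
`σ ^ k = g` (junk value `0` if `g` is not a power of `σ`). -/
noncomputable def cycIdx (σ g : G) : ℕ := sInf {k : ℕ | σ ^ k = g}

/-- The standard 2-cocycle of a cyclic group of order `n` with generator `σ` attached to an
invariant element `x` of a (multiplicative) `G`-module: `(σ^i, σ^j) ↦ x ^ ⌊(i + j) / n⌋`,
`0 ≤ i, j < n`. -/
noncomputable def cycCocycle {M : Type} [CommGroup M] (σ : G) (x : M) : G × G → M :=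
  fun p => x ^ ((cycIdx σ p.1 + cycIdx σ p.2) / Nat.card G)

end Cyclic

end Fermat.Agent.S55.Local
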